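/-
GAMMA item (b') (helper2), part 1: **the pole divisor of a chart**, abstractly.

`F / K` a function field (`K` algebraically closed), `x` a separating generator,
`I := (x)_∞ = poleDiv hx x`.

* `s33bi_L_zsmul`, `s33bi_L_nsmul` : `L(a • I) = tbLbar x a 0` (integrality over `K[x]` and
  `K[x⁻¹]` ↔ pole orders);
* `s33bi_degree_pos`, `s33bi_apply_eq_zero_iff`, `s33bi_apply_pos_iff` : support and degree;
* `s33bi_smul_poleDiv`, `s33bi_smul_poleDiv_of_fixed` : semilinear automorphisms;
* `s33bi_mem_L_sub_iff` : `L(a • I - E)` for an effective divisor `E` away from the poles of `x`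
  = the functions of `tbLbar x a 0` vanishing to the order `E`.
-/
import Fermat.Agent.Lib.T1.Core.Twist
import Fermat.Prelude.Def_AlgebraicCurve_BaseChangeGalois

set_option autoImplicit false
set_option linter.style.haveILetI false
set_option linter.unusedSectionVars false

namespace Fermat.Agent.S33

open AlgebraicCurve WithZero IntermediateField Fermat.Agent.Curve Fermat.Agent.Curve.PlaceAux
  Fermat.Agent.T1

open Fermat.Agent.CurveP.RRAux (poleDiv poleDiv_apply poleDiv_nonneg degree_poleDiv_gen
  mem_riemannRochSpace_iff_ordGE)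

variable {K F : Type*} [Field K] [Field F] [Algebra K F] [IsAlgClosed K] {x : F}
  (hx : IsFunctionFieldGen K F x) [Algebra.IsSeparable K⟮x⟯ F]

include hx

/-- **dictionary**: `L(a (x)_∞) = {t | t integral over K[x], x⁻ᵃ t integral over K[x⁻¹]}` -/
theorem s33bi_L_zsmul (a : ℕ) :
    riemannRochSpace ((a : ℤ) • poleDiv hx x) = tbLbar (K := K) x a 0 := by
  rw [tw_tbLbar_eq hx a 0]
  congr 1
  rw [twDiv, Nat.cast_zero, zero_smul, add_zero, zero_add]

/-- the same with `ℕ`-multiples -/
theorem s33bi_L_nsmul (a : ℕ) :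
    riemannRochSpace (a • poleDiv hx x) = tbLbar (K := K) x a 0 := by
  rw [← s33bi_L_zsmul hx a, natCast_zsmul]

theorem s33bi_mem_L_iff (a : ℕ) (t : F) :
    t ∈ riemannRochSpace (a • poleDiv hx x) ↔
      IsIntegral ↥(Algebra.adjoin K {x}) t ∧
        IsIntegral ↥(Algebra.adjoin K {x⁻¹}) (x⁻¹ ^ a * t) := by
  rw [s33bi_L_nsmul hx a, mem_tbLbar, pow_zero, one_mul]

/-- the pole divisor is supported on the poles -/
theorem s33bi_apply_eq_zero_iff (v : Place K F) : poleDiv hx x v = 0 ↔ 0 ≤ v.ord x := by
  rw [poleDiv_apply]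
  constructor
  · intro h
    have := le_max_right 0 (-(v.ord x))
    omega
  · intro h
    rw [max_eq_left (by omega)]

theorem s33bi_apply_pos_iff (v : Place K F) : 0 < poleDiv hx x v ↔ v.ord x < 0 := by
  have h1 := s33bi_apply_eq_zero_iff hx v
  have h2 := poleDiv_nonneg hx x v
  rw [Finsupp.zero_apply] at h2
  constructor
  · intro h
    by_contra hcon
    have := h1.mpr (by omega)
    omega
  · intro h
    rcases eq_or_lt_of_le h2 with h3 | h3
    · have := h1.mp h3.symm
      omega
    · exact h3

theorem s33bi_apply_of_neg {v : Place K F} (hv : v.ord x < 0) : poleDiv hx x v = -(v.ord x) := by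
  rw [poleDiv_apply, max_eq_right (by omega)]

/-- `deg (x)_∞ = [F : K(x)] > 0` -/
theorem s33bi_degree_pos : 0 < Divisor.degree (poleDiv hx x) := by
  rw [degree_poleDiv_gen hx]
  haveI := hx.finite
  exact_mod_cast Module.finrank_pos (R := K⟮x⟯) (M := F)

/-- **semilinear automorphisms and pole divisors**: `g • (f)_∞ = (g f)_∞` -/
theorem s33bi_smul_poleDiv (g : SemilinearAut K F) (f : F) :
    g • poleDiv hx f = poleDiv hx (g • f) := by
  ext w
  rw [SemilinearAut.divisor_smul_apply, poleDiv_apply, poleDiv_apply]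
  have := SemilinearAut.ord_smul g (g⁻¹ • w) f
  rw [smul_inv_smul] at this
  rw [this]

/-- **the pole divisor of a fixed function is fixed** -/
theorem s33bi_smul_poleDiv_of_fixed (g : SemilinearAut K F) {f : F} (hf : g • f = f) :
    g • poleDiv hx f = poleDiv hx f := by
  rw [s33bi_smul_poleDiv hx g f, hf]

/-- **the spaces `L(a (x)_∞ - E)`**, `E` effective and away from the poles of `x`: the functions of
`tbLbar x a 0` vanishing to the order `E` -/
theorem s33bi_mem_L_sub_iff (a : ℕ) (E : Divisor K F) (hE : 0 ≤ E)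
    (hoff : ∀ v : Place K F, v.ord x < 0 → E v = 0) (t : F) :
    t ∈ riemannRochSpace (a • poleDiv hx x - E) ↔
      t ∈ tbLbar (K := K) x a 0 ∧ ∀ v : Place K F, 0 < E v → OrdGE v t (E v) := by
  rw [← s33bi_L_nsmul hx a, mem_riemannRochSpace_iff_ordGE, mem_riemannRochSpace_iff_ordGE]
  constructor
  · intro h
    refine ⟨fun v => (h v).mono v ?_, fun v hv => (h v).mono v ?_⟩
    · have := hE v
      rw [Finsupp.zero_apply] at this
      rw [Finsupp.sub_apply]
      omega
    · rw [Finsupp.sub_apply, Finsupp.smul_apply]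
      have h1 : poleDiv hx x v = 0 := by
        rw [s33bi_apply_eq_zero_iff hx]
        by_contra hcon
        have := hoff v (by omega)
        omega
      rw [h1, smul_zero]
      omega
  · rintro ⟨h1, h2⟩ v
    rw [Finsupp.sub_apply]
    rcases eq_or_lt_of_le (hE v) with h0 | h0
    · rw [Finsupp.zero_apply] at h0
      rw [← h0, sub_zero]
      exact h1 v
    · rw [Finsupp.zero_apply] at h0
      have h3 : poleDiv hx x v = 0 := by
        rw [s33bi_apply_eq_zero_iff hx]
        by_contra hcon
        have := hoff v (by omega)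
        omega
      refine (h2 v h0).mono v ?_
      rw [Finsupp.smul_apply, h3, smul_zero]
      omega

end Fermat.Agent.S33
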