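/-
GAMMA item (b') (helper2), part 2: **the pole divisor `I = (x)_∞` of the symmetric chart**
`x = (j^(p²) - j) · w_p (j^(p²) - j)` of `F = ℚ̄(X₀(N' p))`.

* `s33biX 𝔓 N' h`, `s33biX_gen`, `s33biX_sep` : the chart, a separating generator of `F / ℚ̄`;
* `s33biI 𝔓 N' h : Divisor ℚ̄ F` : its pole divisor, `s33biI_apply`, `s33biI_nonneg`;
* `s33bi_degree` : `deg I = [F : ℚ̄(x)]`;
* `s33bi_L` : `L(a • I) = tbLbar x a 0`;
* `s33bi_smul_X`, `s33bi_smul_I`, `s33bi_hIG` : `x` and `I` are fixed by the arithmetic action of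
  `G_ℚ` (in particular by the inertia group `𝔓.I`).
-/
import Fermat.Agent.Lib.S33.Base.Pole
import Fermat.Agent.Lib.T2.Inst.ChartAlg
import Fermat.Agent.Lib.T2.AL.Comm

set_option autoImplicit false
set_option linter.style.haveILetI false
set_option linter.unusedSectionVars false
set_option synthInstance.maxHeartbeats 400000

open HahnSeries ModularCurve AlgebraicCurve IntermediateField Fermat.Agent.T1 Fermat.Agent.T2
  Fermat.Agent.TW Fermat.Agent.S05Lib Fermat.Agent.S24Lib Fermat.Agent.Curve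
  Fermat.Agent.Curve.PlaceAux

open Fermat.Agent.CurveP.RRAux (poleDiv poleDiv_apply poleDiv_nonneg degree_poleDiv_gen)

noncomputable section

namespace Fermat.Agent.S33

local notation "Qb" => AlgebraicClosure ℚ
local notation "GQ" => (AlgebraicClosure ℚ ≃ₐ[ℚ] AlgebraicClosure ℚ)

attribute [local instance] t2i_dvr t2i_isAlgClosed t2i_charP t2i_fact

variable (𝔓 : FFPlace) (N' : ℕ) [NeZero N'] (h : ¬ 𝔓.p ∣ N')

/-- the symmetric chart `x = (j^(p²) - j) · w_p (j^(p²) - j)` -/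
def s33biX : ↥(modularFunctionFieldBar (N' * 𝔓.p)) :=
  (tbJ (N' * 𝔓.p) ^ (𝔓.p ^ 2) - tbJ (N' * 𝔓.p)) *
    t2w Qb N' 𝔓.p h (tbJ (N' * 𝔓.p) ^ (𝔓.p ^ 2) - tbJ (N' * 𝔓.p))

theorem s33biX_eq :
    s33biX 𝔓 N' h = (tbJ (N' * 𝔓.p) ^ (𝔓.p ^ 2) - tbJ (N' * 𝔓.p)) *
      t2w Qb N' 𝔓.p h (tbJ (N' * 𝔓.p) ^ (𝔓.p ^ 2) - tbJ (N' * 𝔓.p)) := rfl

/-- the chart generates `F` over `ℚ̄` -/
theorem s33biX_gen :
    IsFunctionFieldGen Qb ↥(modularFunctionFieldBar (N' * 𝔓.p)) (s33biX 𝔓 N' h) :=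
  t2dg_isFunctionFieldGen_chart_al N' 𝔓.p h (t2ca_two_le 𝔓.p)

/-- separability (characteristic `0`) -/
instance s33biX_sep :
    Algebra.IsSeparable ↥Qb⟮s33biX 𝔓 N' h⟯ ↥(modularFunctionFieldBar (N' * 𝔓.p)) :=
  t2ca_isSeparable N' 𝔓.p (s33biX_gen 𝔓 N' h)

theorem s33biX_ne_zero : s33biX 𝔓 N' h ≠ 0 := fun h0 =>
  (s33biX_gen 𝔓 N' h).transcendental (h0 ▸ isAlgebraic_zero)

/-- **the pole divisor of the chart** -/
def s33biI : Divisor Qb ↥(modularFunctionFieldBar (N' * 𝔓.p)) :=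
  poleDiv (s33biX_gen 𝔓 N' h) (s33biX 𝔓 N' h)

theorem s33biI_eq : s33biI 𝔓 N' h = poleDiv (s33biX_gen 𝔓 N' h) (s33biX 𝔓 N' h) := rfl

/-- the pole divisor does not depend on the proofs -/
theorem s33biI_eq' {x : ↥(modularFunctionFieldBar (N' * 𝔓.p))}
    (hx : IsFunctionFieldGen Qb ↥(modularFunctionFieldBar (N' * 𝔓.p)) x)
    [Algebra.IsSeparable ↥Qb⟮x⟯ ↥(modularFunctionFieldBar (N' * 𝔓.p))]
    (hxx : x = s33biX 𝔓 N' h) : poleDiv hx x = s33biI 𝔓 N' h := by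
  subst hxx
  rfl

theorem s33biI_apply (v : Place Qb ↥(modularFunctionFieldBar (N' * 𝔓.p))) :
    s33biI 𝔓 N' h v = max 0 (-(v.ord (s33biX 𝔓 N' h))) := rfl

theorem s33biI_nonneg : 0 ≤ s33biI 𝔓 N' h := poleDiv_nonneg _ _

theorem s33biI_apply_eq_zero_iff (v : Place Qb ↥(modularFunctionFieldBar (N' * 𝔓.p))) :
    s33biI 𝔓 N' h v = 0 ↔ 0 ≤ v.ord (s33biX 𝔓 N' h) :=
  s33bi_apply_eq_zero_iff (s33biX_gen 𝔓 N' h) v

theorem s33biI_apply_pos_iff (v : Place Qb ↥(modularFunctionFieldBar (N' * 𝔓.p))) :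
    0 < s33biI 𝔓 N' h v ↔ v.ord (s33biX 𝔓 N' h) < 0 :=
  s33bi_apply_pos_iff (s33biX_gen 𝔓 N' h) v

/-- **`deg I = [F : ℚ̄(x)]`** -/
theorem s33bi_degree :
    Divisor.degree (s33biI 𝔓 N' h) =
      Module.finrank ↥Qb⟮s33biX 𝔓 N' h⟯ ↥(modularFunctionFieldBar (N' * 𝔓.p)) :=
  degree_poleDiv_gen (s33biX_gen 𝔓 N' h)

theorem s33bi_degree_pos' : 0 < Divisor.degree (s33biI 𝔓 N' h) :=
  s33bi_degree_pos (s33biX_gen 𝔓 N' h)

theorem s33bi_degree_nsmul (n : ℕ) :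
    Divisor.degree (n • s33biI 𝔓 N' h) =
      ((n * Module.finrank ↥Qb⟮s33biX 𝔓 N' h⟯ ↥(modularFunctionFieldBar (N' * 𝔓.p)) : ℕ) : ℤ) := by
  rw [map_nsmul, s33bi_degree, nsmul_eq_mul, Nat.cast_mul]

/-- **dictionary**: `L(a • I) = tbLbar x a 0` -/
theorem s33bi_L (a : ℕ) :
    riemannRochSpace (a • s33biI 𝔓 N' h) = tbLbar (K := Qb) (s33biX 𝔓 N' h) a 0 :=
  s33bi_L_nsmul (s33biX_gen 𝔓 N' h) a

theorem s33bi_L_int (a : ℕ) :
    riemannRochSpace ((a : ℤ) • s33biI 𝔓 N' h) = tbLbar (K := Qb) (s33biX 𝔓 N' h) a 0 :=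
  s33bi_L_zsmul (s33biX_gen 𝔓 N' h) a

theorem s33bi_mem_L (a : ℕ) (t : ↥(modularFunctionFieldBar (N' * 𝔓.p))) :
    t ∈ riemannRochSpace (a • s33biI 𝔓 N' h) ↔
      IsIntegral ↥(Algebra.adjoin Qb {s33biX 𝔓 N' h}) t ∧
        IsIntegral ↥(Algebra.adjoin Qb {(s33biX 𝔓 N' h)⁻¹}) ((s33biX 𝔓 N' h)⁻¹ ^ a * t) :=
  s33bi_mem_L_iff (s33biX_gen 𝔓 N' h) a t

/-- `L(a • I - E)` for an effective `E` away from the poles of the chart -/
theorem s33bi_mem_L_sub (a : ℕ) (E : Divisor Qb ↥(modularFunctionFieldBar (N' * 𝔓.p)))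
    (hE : 0 ≤ E)
    (hoff : ∀ v : Place Qb ↥(modularFunctionFieldBar (N' * 𝔓.p)),
      v.ord (s33biX 𝔓 N' h) < 0 → E v = 0) (t : ↥(modularFunctionFieldBar (N' * 𝔓.p))) :
    t ∈ riemannRochSpace (a • s33biI 𝔓 N' h - E) ↔
      t ∈ tbLbar (K := Qb) (s33biX 𝔓 N' h) a 0 ∧
        ∀ v : Place Qb ↥(modularFunctionFieldBar (N' * 𝔓.p)), 0 < E v → OrdGE v t (E v) :=
  s33bi_mem_L_sub_iff (s33biX_gen 𝔓 N' h) a E hE hoff t

/-! ### The arithmetic Galois action -/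

/-- the arithmetic action fixes `j` -/
theorem s33bi_smul_tbJ (M : ℕ) [NeZero M] (σ : GQ) :
    arithmeticGalois (modularFunctionFieldFull M) σ • tbJ M = tbJ M :=
  Subtype.ext (coeffMap_jqModC _)

/-- **the chart has rational coefficients** -/
theorem s33bi_smul_X (σ : GQ) :
    arithmeticGalois (modularFunctionFieldFull (N' * 𝔓.p)) σ • s33biX 𝔓 N' h = s33biX 𝔓 N' h := by
  have h1 : arithmeticGalois (modularFunctionFieldFull (N' * 𝔓.p)) σ •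
      (tbJ (N' * 𝔓.p) ^ (𝔓.p ^ 2) - tbJ (N' * 𝔓.p)) =
      tbJ (N' * 𝔓.p) ^ (𝔓.p ^ 2) - tbJ (N' * 𝔓.p) := by
    rw [smul_sub, smul_pow', s33bi_smul_tbJ]
  rw [s33biX, smul_mul', ← t2w_comm_smul, h1]

/-- **the pole divisor of the chart is fixed by the arithmetic action of `G_ℚ`** -/
theorem s33bi_smul_I (σ : GQ) :
    arithmeticGalois (modularFunctionFieldFull (N' * 𝔓.p)) σ • s33biI 𝔓 N' h = s33biI 𝔓 N' h :=
  s33bi_smul_poleDiv_of_fixed (s33biX_gen 𝔓 N' h) _ (s33bi_smul_X 𝔓 N' h σ)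

/-- the literal hypothesis `hIG` of `s33w_model_of_red` -/
theorem s33bi_hIG : ∀ σ ∈ 𝔓.I,
    arithmeticGalois (modularFunctionFieldFull (N' * 𝔓.p)) σ • s33biI 𝔓 N' h = s33biI 𝔓 N' h :=
  fun σ _ => s33bi_smul_I 𝔓 N' h σ

theorem s33bi_smul_nsmul_I (σ : GQ) (n : ℕ) :
    arithmeticGalois (modularFunctionFieldFull (N' * 𝔓.p)) σ • (n • s33biI 𝔓 N' h) =
      n • s33biI 𝔓 N' h := by
  rw [smul_comm, s33bi_smul_I]

end Fermat.Agent.S33
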