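/-
GAMMA item (b') (helper2), part 3: **functions regular on both charts are constant** (`hconst` of
`s33z_idem` / `s33z_idem'`), abstractly and for the symmetric chart of `ℚ̄(X₀(N' p))`.
-/
import Fermat.Agent.Lib.S33.Base.Chart
import Fermat.Agent.Lib.T2.Core.Flat

set_option autoImplicit false
set_option linter.style.haveILetI false
set_option linter.unusedSectionVars false
set_option synthInstance.maxHeartbeats 400000

open HahnSeries ModularCurve AlgebraicCurve IntermediateField Fermat.Agent.T1 Fermat.Agent.T2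
  Fermat.Agent.TW Fermat.Agent.S05Lib Fermat.Agent.S24Lib Fermat.Agent.Curve
  Fermat.Agent.Curve.PlaceAux

open Fermat.Agent.CurveP.RRAux (poleDiv)

noncomputable section

namespace Fermat.Agent.S33

section Abstract

variable {K F : Type*} [Field K] [Field F] [Algebra K F] [IsAlgClosed K] {x : F}
  (hx : IsFunctionFieldGen K F x) [Algebra.IsSeparable K⟮x⟯ F]

include hx

/-- `tbLbar x 0 0` are the constants -/
theorem s33bi_tbLbar_zero :
    tbLbar (K := K) x 0 0 = LinearMap.range (Algebra.linearMap K F) := by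
  rw [← s33bi_L_nsmul hx 0, zero_smul]
  exact CurveP.riemannRochSpace_zero hx

/-- **`hconst`**: a function integral over `K[x]` and over `K[x⁻¹]` is constant -/
theorem s33bi_hconst : ∀ f : F, f ∈ t2Int (K := K) x → f ∈ t2Int (K := K) x⁻¹ →
    f ∈ Set.range (algebraMap K F) := by
  intro f h1 h2
  have hf : f ∈ tbLbar (K := K) x 0 0 := by
    rw [mem_tbLbar, pow_zero, one_mul, pow_zero, one_mul]
    exact ⟨h1, h2⟩
  rw [s33bi_tbLbar_zero hx] at hf
  obtain ⟨a, ha⟩ := hf
  exact ⟨a, ha⟩

end Abstract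

local notation "Qb" => AlgebraicClosure ℚ

attribute [local instance] t2i_dvr t2i_isAlgClosed t2i_charP t2i_fact

variable (𝔓 : FFPlace) (N' : ℕ) [NeZero N'] (h : ¬ 𝔓.p ∣ N')

/-- **`hconst` for the symmetric chart** -/
theorem s33bi_hconst_chart : ∀ f : ↥(modularFunctionFieldBar (N' * 𝔓.p)),
    f ∈ t2Int (K := Qb) (s33biX 𝔓 N' h) → f ∈ t2Int (K := Qb) (s33biX 𝔓 N' h)⁻¹ →
    f ∈ Set.range (algebraMap Qb ↥(modularFunctionFieldBar (N' * 𝔓.p))) :=
  s33bi_hconst (s33biX_gen 𝔓 N' h)

end Fermat.Agent.S33
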